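import Mathlib
import Fermat.Prelude.Def_FreyPackage_EigenformResidualAttachment
import Fermat.Agent.S54.Frobenius
import Fermat.Agent.S41.H2.NeAsm
import Fermat.Agent.S13.H56.TorsionFinal

/-!
# Program A (S42), leaf FLD (helper54): the number field `F` of the frozen S42

`exists_numberField_ker_le`: every open subgroup `H` of `Gal(ℚ̄/ℚ)` contains the kernel of the
restriction to a finite Galois extension `F / ℚ` inside `ℚ̄`, in the binder shape of the frozen
statement S42.
-/

set_option autoImplicit false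
set_option linter.style.haveILetI false
set_option linter.unreachableTactic false
set_option linter.unusedTactic false

open WeierstrassCurve WeierstrassCurve.Affine WeierstrassCurve.Affine.Point

namespace Fermat.Agent.S42.H54

local notation "Qbar" => AlgebraicClosure ℚ
local notation "Γ" => (AlgebraicClosure ℚ ≃ₐ[ℚ] AlgebraicClosure ℚ)

/-- **(FLD)** An open subgroup of `Gal(ℚ̄/ℚ)` contains the kernel of the restriction to a finite
Galois extension of `ℚ` (binders of the frozen S42). -/
theorem exists_numberField_ker_le (H : Subgroup Γ) (hH : IsOpen (H : Set Γ)) :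
    ∃ (F : Type) (_ : Field F) (_ : NumberField F) (_ : IsGalois ℚ F)
      (_ : Algebra F (AlgebraicClosure ℚ)) (_ : IsScalarTower ℚ F (AlgebraicClosure ℚ)),
      (AlgEquiv.restrictNormalHom (F := ℚ) (K₁ := AlgebraicClosure ℚ) F).ker ≤ H := by
  haveI := Fermat.Agent.S54.isGalois_algebraicClosure_rat
  have hnhds : (H : Set Γ) ∈ nhds (1 : Γ) := hH.mem_nhds H.one_mem
  obtain ⟨E, hfd, hnormal₁, hE⟩ := (krullTopology_mem_nhds_one_iff_of_normal ℚ Qbar _).mp hnhds
  haveI : NumberField E := by
    refine @NumberField.mk _ _ inferInstance ?_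
    convert hfd
    all_goals first
      | rfl
      | exact (subsingleton_rat_module (↥E)).elim _ _
  haveI : Normal ℚ E := by
    convert hnormal₁
    all_goals first
      | rfl
      | exact Rat.algebra_rat_subsingleton.elim _ _
  haveI : IsGalois ℚ E := ⟨⟩
  have hr : ∀ (σ : Γ) (x : ↥E),
      algebraMap (↥E) Qbar (AlgEquiv.restrictNormalHom (F := ℚ) (K₁ := Qbar) ↥E σ x) =
        σ (algebraMap (↥E) Qbar x) :=
    fun σ x => AlgEquiv.restrictNormal_commutes σ _ x
  have hker : (AlgEquiv.restrictNormalHom (F := ℚ) (K₁ := Qbar) ↥E).ker ≤ H := by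
    intro σ hσ
    rw [MonoidHom.mem_ker] at hσ
    refine hE ?_
    rw [SetLike.mem_coe, IntermediateField.mem_fixingSubgroup_iff]
    intro x hx
    have h1 := hr σ ⟨x, hx⟩
    rw [hσ] at h1
    exact h1.symm
  exact ⟨↥E, inferInstance, inferInstance, inferInstance, inferInstance, inferInstance, hker⟩

/-- A homomorphism of finite level has open kernel. -/
theorem isOpen_ker_of_factors {M : Type*} [Monoid M] (ρ : Γ →* M)
    (hρ : ∃ L : IntermediateField ℚ Qbar, FiniteDimensional ℚ L ∧
      ∀ σ : Γ, (∀ x ∈ L, σ x = x) → ρ σ = 1) :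
    IsOpen (ρ.ker : Set Γ) := by
  obtain ⟨L, hL, h⟩ := hρ
  have hle : L.fixingSubgroup ≤ ρ.ker := by
    intro σ hσ
    rw [MonoidHom.mem_ker]
    exact h σ fun x hx => (IntermediateField.mem_fixingSubgroup_iff L σ).mp hσ x hx
  exact Subgroup.isOpen_mono hle (IntermediateField.fixingSubgroup_isOpen L)

/-- The kernel of the mod `p` representation of an elliptic curve over `ℚ` (odd `p`) is open. -/
theorem isOpen_ker_galoisRepModuleEnd [DecidableEq Qbar] (W' : Affine ℚ) {p : ℕ} (hp : p.Prime)
    (hp2 : p ≠ 2) :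
    IsOpen ((galoisRepModuleEnd (S := ℚ) (K := Qbar) W' p).ker : Set Γ) := by
  haveI hfin : Finite (Submodule.torsionBy ℤ (W'⁄Qbar).Point p) :=
    (Fermat.Agent.S13.H56.natCard_torsionBy_le (W'⁄Qbar) hp hp2).1
  have hset : ((galoisRepModuleEnd (S := ℚ) (K := Qbar) W' p).ker : Set Γ) =
      ⋂ v : Submodule.torsionBy ℤ (W'⁄Qbar).Point p,
        {τ : Γ | τ • (v : (W'⁄Qbar).Point) = v} := by
    ext τ
    rw [SetLike.mem_coe, MonoidHom.mem_ker, Set.mem_iInter]
    constructor
    · intro h v
      have h1 := LinearMap.congr_fun h v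
      rw [galoisRepModuleEnd_apply] at h1
      exact congrArg Subtype.val h1
    · intro h
      ext v
      rw [galoisRepModuleEnd_apply]
      exact h v
  rw [hset]
  exact isOpen_iInter_of_finite fun v => Fermat.Agent.S41.H2.isOpen_stabilizer_point _

/-- **(FLD) for S42**: a number field `F`, Galois over `ℚ`, inside `ℚ̄`, such that `Gal(ℚ̄/F)`
acts trivially on the `p`-torsion of an elliptic curve over `ℚ` and lies in a given open
subgroup. -/
theorem exists_numberField_torsion [DecidableEq Qbar] (W' : Affine ℚ) {p : ℕ} (hp : p.Prime)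
    (hp2 : p ≠ 2) (H : Subgroup Γ) (hH : IsOpen (H : Set Γ)) :
    ∃ (F : Type) (_ : Field F) (_ : NumberField F) (_ : IsGalois ℚ F)
      (_ : Algebra F (AlgebraicClosure ℚ)) (_ : IsScalarTower ℚ F (AlgebraicClosure ℚ)),
      (AlgEquiv.restrictNormalHom (F := ℚ) (K₁ := AlgebraicClosure ℚ) F).ker ≤
        (galoisRepModuleEnd (S := ℚ) (K := AlgebraicClosure ℚ) W' p).ker ⊓ H := by
  refine exists_numberField_ker_le _ ?_
  rw [Subgroup.coe_inf]
  exact (isOpen_ker_galoisRepModuleEnd W' hp hp2).inter hH

/-- **(FLD) for S42**, for the Frey curve and the kernel of a representation of finite level: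
the last existential block of the frozen S42 (before the arithmetic clauses). -/
theorem exists_numberField_frey [DecidableEq Qbar] (P : FreyPackage) {M : Type*} [Monoid M]
    (ρ : Γ →* M)
    (hρ : ∃ L : IntermediateField ℚ Qbar, FiniteDimensional ℚ L ∧
      ∀ σ : Γ, (∀ x ∈ L, σ x = x) → ρ σ = 1) :
    ∃ (F : Type) (_ : Field F) (_ : NumberField F) (_ : IsGalois ℚ F)
      (_ : Algebra F (AlgebraicClosure ℚ)) (_ : IsScalarTower ℚ F (AlgebraicClosure ℚ)),
      (AlgEquiv.restrictNormalHom (F := ℚ) (K₁ := AlgebraicClosure ℚ) F).ker ≤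
        (galoisRepModuleEnd (S := ℚ) (K := AlgebraicClosure ℚ) P.freyCurve P.p).ker ⊓ ρ.ker :=
  exists_numberField_torsion _ P.pp (by have := P.hp5; omega) _ (isOpen_ker_of_factors ρ hρ)

end Fermat.Agent.S42.H54
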