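import Mathlib
import Fermat.Prelude.Def_FreyPackage_EigenformResidualAttachment
import Fermat.Agent.S42.H54.Level

/-!
# Program A (S42), packaging (helper54)

`attachment_of_rep`: the frozen predicate `FreyPackage.EigenformResidualAttachmentAt` from a
two-dimensional representation of finite level with the expected characteristic polynomials at
the Frobenius elements.  The number field `F` comes from `exists_numberField_frey`; trace and
determinant are read off the characteristic polynomial.
-/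

set_option autoImplicit false
set_option linter.style.haveILetI false

open Polynomial

namespace Fermat.Agent.S42.H54

local notation "Qbar" => AlgebraicClosure ℚ
local notation "Γ" => (AlgebraicClosure ℚ ≃ₐ[ℚ] AlgebraicClosure ℚ)

/-- Trace and determinant of an endomorphism of a plane from its characteristic polynomial. -/
theorem trace_det_of_charpoly {K V : Type*} [Field K] [AddCommGroup V] [Module K V]
    [Module.Finite K V]
    (h2 : Module.finrank K V = 2) (f : Module.End K V) (t d : K)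
    (h : LinearMap.charpoly f = X ^ 2 - C t * X + C d) :
    LinearMap.trace K V f = t ∧ LinearMap.det f = d := by
  let b : Module.Basis (Fin 2) K V := Module.finBasisOfFinrankEq K V h2
  have hM : (LinearMap.toMatrix b b f).charpoly = X ^ 2 - C t * X + C d := by
    rw [LinearMap.charpoly_toMatrix, h]
  constructor
  · rw [LinearMap.trace_eq_matrix_trace K b f, Matrix.trace_eq_neg_charpoly_coeff, hM]
    simp [Polynomial.coeff_X_pow]
  · rw [← LinearMap.det_toMatrix b f, Matrix.det_eq_sign_charpoly_coeff, hM]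
    simp [Polynomial.coeff_X_pow, Polynomial.coeff_X]

/-- **S42 packaging.**  The frozen predicate `EigenformResidualAttachmentAt` from a
two-dimensional representation of finite level whose characteristic polynomial at every
Frobenius element at `ℓ ∤ M`, `ℓ ≠ p`, is `X² - ψ(a_ℓ) X + ℓ`. -/
theorem attachment_of_rep (P : FreyPackage) (M : ℕ)
    (h : ∀ (g : CuspForm (CongruenceSubgroup.Gamma0 M) 2), g.IsNormalizedEigenform →
      ∀ (𝔪 : Ideal (integralClosure ℤ ℂ)), 𝔪.IsMaximal → (P.p : integralClosure ℤ ℂ) ∈ 𝔪 →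
      ∃ (K : Type) (_ : Field K) (_ : Algebra (ZMod P.p) K)
        (V : Type) (_ : AddCommGroup V) (_ : Module K V) (_ : Module.Finite K V)
        (ρ : Γ →* Module.End K V) (ψ : integralClosure ℤ ℂ →+* K),
        𝔪 ≤ RingHom.ker ψ ∧ Module.finrank K V = 2 ∧
        (∃ L : IntermediateField ℚ Qbar, FiniteDimensional ℚ L ∧
          ∀ σ : Γ, (∀ x ∈ L, σ x = x) → ρ σ = 1) ∧
        ∀ ℓ : ℕ, ℓ.Prime → ¬ ℓ ∣ M → ℓ ≠ P.p →
          ∀ A : ValuationSubring Qbar, A.LiesOverPrime ℓ →
            ∀ τ : Γ, A.IsFrobeniusAt τ ℓ →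
              ∃ a : integralClosure ℤ ℂ, (a : ℂ) = ModularFormClass.qCoeff g ℓ ∧
                LinearMap.charpoly (ρ τ) = X ^ 2 - C (ψ a) * X + C (ℓ : K)) :
    P.EigenformResidualAttachmentAt M := by
  intro g hg 𝔪 hmax hpm
  obtain ⟨K, iK, iA, V, iV, iM, iFin, ρ, ψ, hψ, h2, hfin, hchar⟩ := h g hg 𝔪 hmax hpm
  obtain ⟨F, iF, iNF, iG, iAF, iST, hker⟩ := exists_numberField_frey P ρ hfin
  refine ⟨K, iK, iA, V, iV, iM, ρ, ψ, F, iF, iNF, iG, iAF, iST, hψ, h2, hker, ?_, ?_⟩
  · intro ℓ hℓ hℓM hℓp A hA τ hτ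
    obtain ⟨a, ha, hc⟩ := hchar ℓ hℓ hℓM hℓp A hA τ hτ
    exact ⟨a, ha, (trace_det_of_charpoly h2 (ρ τ) _ _ hc).1⟩
  · intro ℓ hℓ hℓM hℓp A hA τ hτ
    obtain ⟨a, ha, hc⟩ := hchar ℓ hℓ hℓM hℓp A hA τ hτ
    exact (trace_det_of_charpoly h2 (ρ τ) _ _ hc).2

end Fermat.Agent.S42.H54
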