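import Mathlib
import Fermat.Agent.S29.H54.Top
import Fermat.Agent.S42.H54.Attach

/-!
# Program A: the top of S42 (helper54)

`s42_of_topHyp`: the frozen statement S42 for a Frey package `P` from the single hypothesis
`TopHyp P.p` (the module statement for all levels `M ≠ 0`, all normalised eigenforms and all
maximal ideals of `ℤ̄` above `P.p`).
-/

set_option autoImplicit false
set_option linter.style.haveILetI false

open Polynomial

namespace Fermat.Agent.S42.H54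

open Fermat.Agent.S29.H54

/-- **TOP42**: the frozen statement S42 from `TopHyp P.p`. -/
theorem s42_of_topHyp (P : FreyPackage) (h : TopHyp P.p) :
    ∀ M : ℕ, 0 < M → P.EigenformResidualAttachmentAt M := by
  intro M hM
  haveI : NeZero M := ⟨hM.ne'⟩
  refine attachment_of_rep P M fun g hg 𝔪 hmax hpm => ?_
  haveI := hmax
  letI : Field (integralClosure ℤ ℂ ⧸ 𝔪) := @Ideal.Quotient.field _ _ 𝔪 hmax
  haveI : CharP (integralClosure ℤ ℂ ⧸ 𝔪) P.p := charP_quotient P.pp 𝔪 hpm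
  obtain ⟨ρ, hfin, hchar, -⟩ :=
    rho_of_moduleHyp P.pp hM.ne' g 𝔪 hmax hpm (h M g hg 𝔪 hmax hpm)
  refine ⟨integralClosure ℤ ℂ ⧸ 𝔪, inferInstance, ZMod.algebra _ P.p,
    Fin 2 → integralClosure ℤ ℂ ⧸ 𝔪, inferInstance, inferInstance, inferInstance, ρ,
    Ideal.Quotient.mk 𝔪, ?_, Module.finrank_fin_fun _, hfin, ?_⟩
  · rw [Ideal.mk_ker]
  · intro ℓ hℓ hℓM hℓp A hA τ hτ
    have hℓMp : ¬ ℓ ∣ M * P.p := fun hd =>
      (hℓ.dvd_mul.mp hd).elim hℓM fun h2 => hℓp ((Nat.prime_dvd_prime_iff_eq hℓ P.pp).mp h2)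
    exact hchar ℓ hℓ hℓMp A hA τ hτ

end Fermat.Agent.S42.H54
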