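import Mathlib
import Fermat.Agent.S29.H54.ModuleStatement
import Fermat.Agent.S29.H97.EigenRes
import Fermat.Agent.S29.H97.ModAbs
import Fermat.Agent.S29.H17.OrbitFamily
import Fermat.Agent.S29.H60.GaloisHecke
import Fermat.Agent.S37.H77.CoreFree
import Fermat.Agent.S42.H96.Skeleton
import Fermat.Agent.S42.H53.LeafFIN

/-!
# Program A: MOD-INST (helper54, second copy; owner helper14)

`topHyp_of_AJ`: the hypothesis `TopHyp p` of the tops of S29 / S42 from the conclusion of the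
Abel–Jacobi leaf (`AJStatement N p`: a Hecke-equivariant injection `AJ : Hp N p → JZero N [p]`).

Inputs (all landed): the residual eigen-homomorphism in coordinates
(`H97.exists_res_eigenHom_coord`), the abstract module construction (`H97.exists_module_of_hom`),
finite Galois orbits (`H17.finite_range_smul_family`, `H17.factorsThroughFiniteLevel_of_orbit`),
Galois/Hecke commutation (`H60.galois_smul_heckeOperatorBar`), the hcomm-free S37 core
(`H77.core_free`) and finiteness of `Hom(Γ₀(N), ℤ/p)` (`H53.leafFIN`).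
-/

set_option autoImplicit false
set_option linter.style.haveILetI false

open CongruenceSubgroup ModularCurve

namespace Fermat.Agent.S42.H54

open Fermat.Agent.S29.H54 Fermat.Agent.S42.H96 Fermat.Agent.S16.H75

local notation "Qbar" => AlgebraicClosure ℚ
local notation "Γ" => (AlgebraicClosure ℚ ≃ₐ[ℚ] AlgebraicClosure ℚ)

/-- The conclusion of the Abel–Jacobi leaf `H96.exists_AJ` (without the `Rel` clause). -/
def AJStatement (N p : ℕ) [NeZero N] : Prop :=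
  ∃ AJ : ↥(Hp N p) →+ JZero N, Function.Injective AJ ∧ (∀ ψ, p • AJ ψ = 0) ∧
    ∀ (ℓ : Nat.Primes), ¬ (ℓ : ℕ) ∣ N → ∀ (ψ : ↥(Hp N p))
      (h : heckeHom N ℓ (ZMod p) (ψ : Additive (Gamma0 N) →+ ZMod p) ∈ Hp N p),
      heckeOperatorBar N ℓ (AJ ψ) = AJ ⟨heckeHom N ℓ (ZMod p) ψ, h⟩

/-- `AJStatement` from the leaves of the Abel–Jacobi skeleton (`H96.exists_AJ`). -/
theorem ajStatement_of_leaves {N p : ℕ} [NeZero N] (hp : p ≠ 0)
    (hadd : LeafRelAdd N p) (hZR : LeafZR N p) (hhecke : LeafHecke N p)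
    (hdict : LeafDict N) (hdesc : LeafDesc N p)
    (han0 : LeafAN0 N p) (han1 : LeafAN1 N p) (han2 : LeafAN2 N p) (han3 : LeafAN3 N p)
    (hpinv : LeafPINV N p) (hfin : LeafFIN N p) (hrig : LeafRigAlg N p) (han5 : LeafAN5 N p)
    (han6 : LeafAN6 N p) (hord : LeafORD N p) : AJStatement N p := by
  obtain ⟨AJ, h1, h2, -, h4⟩ := exists_AJ hp hadd hZR hhecke hdict hdesc han0 han1 han2 han3
    hpinv hfin hrig han5 han6 hord
  exact ⟨AJ, h1, h2, h4⟩

/-- **MOD-INST** at one level. -/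
theorem moduleHyp_of_AJ {N p : ℕ} [NeZero N] (hp : p.Prime) (hAJ : AJStatement N p)
    (g : CuspForm (Gamma0 N) 2) (hg : g.IsNormalizedEigenform)
    (𝔪 : Ideal (integralClosure ℤ ℂ)) (h𝔪 : 𝔪.IsMaximal)
    (hpm : (p : integralClosure ℤ ℂ) ∈ 𝔪) : ModuleHyp N g p 𝔪 h𝔪 := by
  classical
  haveI : Fact p.Prime := ⟨hp⟩
  haveI := h𝔪
  letI : Field (integralClosure ℤ ℂ ⧸ 𝔪) := @Ideal.Quotient.field _ _ 𝔪 h𝔪
  obtain ⟨ψ, abar, habar, ⟨lam₀, hlam₀⟩, hcoord⟩ :=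
    Fermat.Agent.S29.H97.exists_res_eigenHom_coord p g hg 𝔪 hpm
  obtain ⟨AJ, hinj, htors, hheck⟩ := hAJ
  -- the coordinates of `ψ` lie in `Hp`
  have mem : ∀ lam : integralClosure ℤ ℂ ⧸ 𝔪 →+ ZMod p, lam.comp ψ ∈ Hp N p :=
    fun lam => ⟨(hcoord lam).1, (hcoord lam).2.1⟩
  let c : (integralClosure ℤ ℂ ⧸ 𝔪 →+ ZMod p) →+ ↥(Hp N p) :=
    AddMonoidHom.mk' (fun lam => ⟨lam.comp ψ, mem lam⟩)
      (fun lam lam' => Subtype.ext (AddMonoidHom.add_comp lam lam' ψ))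
  let m0 : (integralClosure ℤ ℂ ⧸ 𝔪 →+ ZMod p) →+ JZero N := AJ.comp c
  have hm0apply : ∀ lam, m0 lam = AJ ⟨lam.comp ψ, mem lam⟩ := fun lam => rfl
  have hm0 : m0 ≠ 0 := by
    intro h0
    have h1 : AJ ⟨lam₀.comp ψ, mem lam₀⟩ = AJ 0 := by
      rw [← hm0apply, h0, map_zero]
      rfl
    have h2 := hinj h1
    exact hlam₀ (congrArg Subtype.val h2)
  -- finiteness
  haveI hfinHom : Finite (Additive (Gamma0 N) →+ ZMod p) :=
    Fermat.Agent.S42.H53.leafFIN N p hp.ne_zero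
  have hs : (Set.range fun lam => m0 lam).Finite :=
    (Set.finite_range AJ).subset (by
      rintro _ ⟨lam, rfl⟩
      exact ⟨c lam, rfl⟩)
  -- the Hecke operators away from `N`
  let T : {ℓ : Nat.Primes // ¬ (ℓ : ℕ) ∣ N} → JZero N →+ JZero N :=
    fun i => heckeOperatorBar N i.1
  have hT : ∀ (i : {ℓ : Nat.Primes // ¬ (ℓ : ℕ) ∣ N}) (σ : Γ) (x : JZero N),
      T i (σ • x) = σ • T i x :=
    fun i σ x => (Fermat.Agent.S29.H60.galois_smul_heckeOperatorBar N i.1 σ x).symm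
  have heig : ∀ (i : {ℓ : Nat.Primes // ¬ (ℓ : ℕ) ∣ N})
      (lam : integralClosure ℤ ℂ ⧸ 𝔪 →+ ZMod p),
      T i (m0 lam) = m0 (lam.comp (AddMonoidHom.mulLeft (abar i.1))) := by
    intro i lam
    have heq := (hcoord lam).2.2 i.1
    have hmemH : heckeHom N i.1 (ZMod p) (lam.comp ψ) ∈ Hp N p := by
      rw [heq]
      exact mem _
    have h1 := hheck i.1 i.2 ⟨lam.comp ψ, mem lam⟩ hmemH
    rw [hm0apply, hm0apply]
    refine h1.trans (congrArg AJ (Subtype.ext ?_))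
    exact heq
  have hfin : (Set.range fun σ : Γ =>
      fun lam : integralClosure ℤ ℂ ⧸ 𝔪 →+ ZMod p => σ • m0 lam).Finite :=
    Fermat.Agent.S29.H17.finite_range_smul_family N (fun lam => m0 lam) hs
  obtain ⟨W, iW, iM, r, hnt, hfinW, h3, h4⟩ :=
    Fermat.Agent.S29.H97.exists_module_of_hom T hT (fun i => abar i.1) m0 hm0 heig hfin
  -- the eigenvalues
  choose b hb hbmk using habar
  -- torsion of the orbit
  have htorsion : ∀ (τ : Γ) (lam : integralClosure ℤ ℂ ⧸ 𝔪 →+ ZMod p),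
      ∃ n : ℕ, p ^ n • (τ • m0 lam) = 0 := by
    intro τ lam
    refine ⟨1, ?_⟩
    have h1 : τ • (p • m0 lam) = p • (τ • m0 lam) :=
      map_nsmul (DistribSMul.toAddMonoidHom (JZero N) τ) p (m0 lam)
    rw [pow_one, ← h1, hm0apply, htors]
    exact map_zero (DistribSMul.toAddMonoidHom (JZero N) τ)
  refine ⟨fun ℓ => if h : ℓ.Prime then b ⟨ℓ, h⟩ else 0, ?_, W, iW, iM, r, hnt, hfinW, ?_, ?_, ?_⟩
  · intro ℓ hℓ _
    simp only [dif_pos hℓ]
    exact hb ⟨ℓ, hℓ⟩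
  · exact Fermat.Agent.S29.H17.factorsThroughFiniteLevel_of_orbit N (fun lam => m0 lam) hs r h3
  · intro ℓ hℓ hℓNp A hA σ hσ
    have hℓN : ¬ ℓ ∣ N := fun hd => hℓNp (Dvd.dvd.mul_right hd p)
    have h5 := h4 σ ⟨⟨ℓ, hℓ⟩, hℓN⟩ ℓ (fun τ lam =>
      (Fermat.Agent.S37.H77.core_free N p ℓ hℓ hℓNp A hA (τ • m0 lam) (htorsion τ lam)).2 σ hσ)
    simp only [dif_pos hℓ]
    rw [← hbmk ⟨ℓ, hℓ⟩]
    exact h5
  · intro ℓ hℓ hℓNp A hA σ hσ
    exact h3 σ fun τ lam =>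
      (Fermat.Agent.S37.H77.core_free N p ℓ hℓ hℓNp A hA (τ • m0 lam) (htorsion τ lam)).1 σ hσ

/-- **MOD-INST**: `TopHyp p` from the Abel–Jacobi leaf at every level. -/
theorem topHyp_of_AJ {p : ℕ} (hp : p.Prime) (hAJ : ∀ (N : ℕ) [NeZero N], AJStatement N p) :
    TopHyp p :=
  fun N _ g hg 𝔪 h𝔪 hpm => moduleHyp_of_AJ hp (hAJ N) g hg 𝔪 h𝔪 hpm

end Fermat.Agent.S42.H54
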