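import Mathlib
import Fermat.Agent.S42.H54.ModInst
import Fermat.Agent.S42.H96.Final

/-!
# Program A: `TopHyp p` for every prime `p` (helper54)

The hypothesis of the tops of S29 and S42, unconditionally: MOD-INST (`topHyp_of_AJ`) applied to
the Abel–Jacobi core `H96.exists_AJ_all` (helper96 and the fifteen leaf owners).
-/

set_option autoImplicit false

namespace Fermat.Agent.S42.H54

open Fermat.Agent.S29.H54

/-- The Abel–Jacobi statement at every level and every nonzero modulus. -/
theorem ajStatement (N p : ℕ) [NeZero N] (hp : p ≠ 0) : AJStatement N p := by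
  obtain ⟨AJ, h1, h2, -, h4⟩ := Fermat.Agent.S42.H96.exists_AJ_all N p hp
  exact ⟨AJ, h1, h2, h4⟩

/-- **`TopHyp p` holds for every prime `p`.** -/
theorem topHyp (p : ℕ) (hp : p.Prime) : TopHyp p :=
  topHyp_of_AJ hp fun N _ => ajStatement N p hp.ne_zero

end Fermat.Agent.S42.H54
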